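import Fermat.Agent.TWPrimes.Interface
import Fermat.Agent.PoitouTate.Field.Target
import Fermat.Agent.PoitouTate.Sha.Basic
import Fermat.Agent.Lowering.P1.Primes.Frobenius

/-!
# Locally trivial classes vanish for large sets of primes

A class which is a coboundary at every place over a large finite set of primes dies on the group
of the field, and is then a coboundary at every element, hence a coboundary.
-/

set_option autoImplicit false
set_option linter.unusedSectionVars false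
set_option linter.style.haveILetI false

noncomputable section

open scoped Pointwise

namespace FLTAgent.TWPrimes

open FLTAgent.PoitouTate

local notation "LL" => AlgebraicClosure ℚ
local notation "GG" => (AlgebraicClosure ℚ ≃ₐ[ℚ] AlgebraicClosure ℚ)
local notation "VS" => ValuationSubring (AlgebraicClosure ℚ)
local notation "Dec" => ValuationSubring.decompositionSubgroup ℚ
local notation "idG" => MonoidHom.id (AlgebraicClosure ℚ ≃ₐ[ℚ] AlgebraicClosure ℚ)

variable {p : ℕ} [Fact p.Prime] {S₁ S : Finset Nat.Primes} {A : Type} [AddCommGroup A]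
  [Module (ZMod p) A] {ρ : Representation (ZMod p) GG A}

section Coc

variable {c : GG → A} (hc : ∀ g h, c (g * h) = c g + ρ g (c h))
include hc

theorem coc_map_one : c 1 = 0 := by
  have h := hc 1 1
  rw [one_mul, map_one, Module.End.one_apply] at h
  exact left_eq_add.1 h

theorem coc_map_inv (g : GG) : c g⁻¹ = -ρ g⁻¹ (c g) := by
  have h := hc g⁻¹ g
  rw [inv_mul_cancel, coc_map_one hc] at h
  exact eq_neg_of_add_eq_zero_left h.symm

/-- Being a coboundary passes to conjugate elements. -/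
theorem cob_conj {g x : GG} {m : A} (hx : c x = ρ x m - m) :
    c (g * x * g⁻¹) = ρ (g * x * g⁻¹) (ρ g m - c g) - (ρ g m - c g) := by
  have key : ρ (g * x * g⁻¹) (ρ g m) = ρ (g * x) m := by
    rw [← rho_mul, inv_mul_cancel_right]
  rw [hc, hc, coc_map_inv hc g, map_neg, hx, map_sub, map_sub, key]
  simp only [rho_mul]
  abel

/-- Being a coboundary passes to powers. -/
theorem cob_pow {x : GG} {m : A} (hx : c x = ρ x m - m) (n : ℕ) :
    c (x ^ n) = ρ (x ^ n) m - m := by
  induction n with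
  | zero => rw [pow_zero, coc_map_one hc, map_one, Module.End.one_apply, sub_self]
  | succ n ih => rw [pow_succ, hc, ih, hx, map_sub, rho_mul ρ (x ^ n) x]; abel

/-- A class which is a coboundary on one decomposition group over a prime is one on all. -/
theorem cob_dec_smul {V : VS} (hb : res1 (p := p) (Dec V).subtype c ∈ B1 ρ (Dec V).subtype)
    (γ : GG) {x : GG} (hx : x ∈ Dec (γ • V)) : ∃ m : A, c x = ρ x m - m := by
  obtain ⟨m, hm⟩ := hb
  have h1 : γ⁻¹ * x * γ ∈ Dec V := by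
    rw [MulAction.mem_stabilizer_iff, mul_smul, mul_smul, MulAction.mem_stabilizer_iff.1 hx,
      inv_smul_smul]
  have h2 : c (γ⁻¹ * x * γ) = ρ (γ⁻¹ * x * γ) m - m := (congrFun hm ⟨_, h1⟩).symm
  have h3 := cob_conj hc (g := γ) h2
  rw [show γ * (γ⁻¹ * x * γ) * γ⁻¹ = x by group] at h3
  exact ⟨_, h3⟩

end Coc

/-- Primes carrying Frobenius elements for every element of the group of the field. -/
theorem exists_elem_primes (F : SField p S₁) :
    ∃ T : Finset Nat.Primes, ∀ g : GG, ∃ q ∈ T, ∃ (W : VS) (τ : GG) (i : ℕ),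
      W.LiesOverPrime (q : ℕ) ∧ τ ∈ Dec W ∧ (τ ^ i)⁻¹ * g ∈ F.N := by
  classical
  haveI := F.fd
  haveI := F.normal
  haveI := Fintype.ofFinite F.Γ
  have h : ∀ x : F.Γ, ∃ q : Nat.Primes, ∃ (W : VS) (τ : GG) (i : ℕ),
      W.LiesOverPrime (q : ℕ) ∧ τ ∈ Dec W ∧ (τ ^ i)⁻¹ * x.out ∈ F.N := fun x => by
    obtain ⟨q, W, τ, i, j, hq, -, hW, hτ, -, hi⟩ :=
      Lowering.P1.Primes.exists_frobenius_zpowers F.K x.out ∅
    exact ⟨⟨q, hq⟩, W, τ, i, hW, hτ.mem_decompositionSubgroup, hi⟩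
  choose d hd using h
  refine ⟨Finset.univ.image d, fun g => ⟨d g, Finset.mem_image_of_mem d (Finset.mem_univ _), ?_⟩⟩
  obtain ⟨W, τ, i, hW, hτ, hi⟩ := hd (g : F.Γ)
  refine ⟨W, τ, i, hW, hτ, ?_⟩
  have h2 : ((g : F.Γ).out)⁻¹ * g ∈ F.N := QuotientGroup.eq.1 (QuotientGroup.out_eq' _)
  have h3 := mul_mem hi h2
  rwa [mul_assoc, mul_inv_cancel_left] at h3

/-- A class which is locally a coboundary at a large set of primes is a coboundary. -/
theorem exists_sha1_le (hp2 : p ≠ 2) (F : SField p S₁) (hpS : ExtCitation.pPrime p ∈ S₁)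
    [FiniteDimensional (ZMod p) A] (hρ : F.Triv ρ) (hcyc : CycDetect ρ F.N) :
    ∃ S₀ : Finset Nat.Primes, S₁ ⊆ S₀ ∧ ∀ S : Finset Nat.Primes, S₀ ⊆ S →
      ∀ V : Nat.Primes → VS, (∀ q, (V q).LiesOverPrime (q : ℕ)) →
        Sha1 ρ S V ≤ B1 ρ idG := by
  classical
  have hp3 : 2 < p := lt_of_le_of_ne (Fact.out : p.Prime).two_le (Ne.symm hp2)
  obtain ⟨T, hT⟩ := exists_elem_primes F
  obtain ⟨R, hR, -⟩ := exists_splaces F ∅ (by simp) (by simp)
  obtain ⟨S', R', hTS, hB⟩ := Field.exists_big F hR hpS hp3 T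
  refine ⟨S', hB.sub, fun S hS V hV c hc => ?_⟩
  obtain ⟨⟨⟨hlev, hcoc⟩, hlevS⟩, hloc⟩ := (mem_sha1 V).1 hc
  have hcoc' : ∀ g h, c (g * h) = c g + ρ g (c h) := hcoc
  have hdec : ∀ q ∈ S, ∀ W : VS, W.LiesOverPrime (q : ℕ) → ∀ x ∈ Dec W,
      ∃ m : A, c x = ρ x m - m := fun q hq W hW x hx => by
    obtain ⟨γ, rfl⟩ := Places.exists_smul_eq q.2 (hV q) hW
    exact cob_dec_smul hcoc' (hloc q hq) γ hx
  let b := Module.finBasis (ZMod p) A
  have hker : ∀ n ∈ F.N, c n = 0 := fun n hn => by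
    refine b.ext_elem fun i => ?_
    have ha : (fun m : ↥F.N => b.coord i (c m)) ∈ Z1S (omRep p) F.N.subtype S := by
      obtain ⟨E, hE, hl⟩ := hlev
      obtain ⟨E', hE', hl'⟩ := hlevS
      refine ⟨⟨⟨E, hE, fun g s hs => ?_⟩, fun g h => ?_⟩, E', hE', fun g s hs => ?_⟩
      · show b.coord i (c ((g : GG) * s)) = _
        rw [hl (g : GG) s hs]
      · show b.coord i (c ((g : GG) * h)) = _
        rw [hcoc', hρ g g.2, LinearMap.id_apply, map_add, omRep_apply, Subgroup.coe_subtype,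
          F.zeta _ (g.2 : (g : GG) ∈ Lowering.P1.galOf F.K), one_mul]
      · show b.coord i (c ((g : GG) * s)) = _
        rw [hl' (g : GG) s hs]
    have hzero : ∀ q ∈ S, ∀ W : VS, W.LiesOverPrime (q : ℕ) →
        res1 (p := p) (F.incl W) (fun m : ↥F.N => b.coord i (c m)) = 0 := fun q hq W hW => by
      funext x
      obtain ⟨hxN, hxD⟩ := Subgroup.mem_inf.1 x.2
      obtain ⟨m, hm⟩ := hdec q hq W hW x hxD
      show b.coord i (c (x : GG)) = 0
      rw [hm, hρ _ hxN, LinearMap.id_apply, sub_self, map_zero]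
    have ha' := Field.mem_Z1S_of_res (Field.mono F hB.sub) hS ha fun q hq _ W hW => hzero q hq W hW
    have h0 := hB.inj _ ha' fun w hw => by
      obtain ⟨l, hl, hwl⟩ := hB.places.places.lies w hw
      obtain ⟨q, hq, e⟩ := (hB.places.iff l w hl hwl).1 (Lowering.P1.Hasse.inOrbit_of_mem hw)
      exact hzero q (hS hq) w (e ▸ hwl)
    rw [map_zero]
    exact congrFun h0 ⟨n, hn⟩
  refine hcyc c hcoc' hker fun g => ?_
  obtain ⟨q, hq, W, τ, i, hW, hτ, hg⟩ := hT g
  obtain ⟨m, hm⟩ := hdec q (hS (hTS hq)) W hW (τ ^ i) (pow_mem hτ i)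
  refine ⟨m, ?_⟩
  have e : g = τ ^ i * ((τ ^ i)⁻¹ * g) := (mul_inv_cancel_left _ _).symm
  rw [e, hcoc', hker _ hg, map_zero, add_zero, hm, rho_mul ρ (τ ^ i), hρ _ hg, LinearMap.id_apply]

end FLTAgent.TWPrimes
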