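import Fermat.Agent.TWPrimes.Dev.Connect
import Fermat.Agent.PoitouTate.Sha.Upper

/-!
# Dévissage of the Euler characteristic inequality

The classes of the quotient which do not lift are seen by the connecting classes of the dual
sequence at the places, modulo the global ones.
-/

set_option autoImplicit false
set_option linter.unusedSectionVars false
set_option linter.style.haveILetI false
set_option maxHeartbeats 1000000

noncomputable section

open scoped Pointwise

namespace FLTAgent.TWPrimes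

open FLTAgent.PoitouTate FLTAgent.Lowering.P1 FLTAgent.Lowering.P1.Brauer

local notation "LL" => AlgebraicClosure ℚ
local notation "GG" => (AlgebraicClosure ℚ ≃ₐ[ℚ] AlgebraicClosure ℚ)
local notation "VS" => ValuationSubring (AlgebraicClosure ℚ)
local notation "Dec" => ValuationSubring.decompositionSubgroup ℚ
local notation "idG" => MonoidHom.id (AlgebraicClosure ℚ ≃ₐ[ℚ] AlgebraicClosure ℚ)

/-- The input from duality: classes of degree two which are locally trivial are trivial when the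
dual has no locally trivial class. -/
def TargetSha2 : Prop :=
  ∀ (p : ℕ) [Fact p.Prime], p ≠ 2 → ∀ (S : Finset Nat.Primes), ExtCitation.pPrime p ∈ S →
    ∀ (V : Nat.Primes → VS), (∀ q, (V q).LiesOverPrime (q : ℕ)) → ∀ (F : SField p S)
      (A A' : Type) [AddCommGroup A] [Module (ZMod p) A] [AddCommGroup A'] [Module (ZMod p) A']
      [FiniteDimensional (ZMod p) A] [FiniteDimensional (ZMod p) A']
      (ρ : Representation (ZMod p) GG A) (ρ' : Representation (ZMod p) GG A'),
      DualPair ρ ρ' → F.Triv ρ → F.Triv ρ' → Sha1 ρ' S V ≤ B1 ρ' idG →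
      Sha2 ρ S V ≤ B2S ρ idG S

variable {p : ℕ} [Fact p.Prime] {S : Finset Nat.Primes}
  {A A' B B' C C' : Type} [AddCommGroup A] [Module (ZMod p) A] [AddCommGroup A']
  [Module (ZMod p) A'] [AddCommGroup B] [Module (ZMod p) B] [AddCommGroup B']
  [Module (ZMod p) B'] [AddCommGroup C] [Module (ZMod p) C] [AddCommGroup C']
  [Module (ZMod p) C']
  [FiniteDimensional (ZMod p) A] [FiniteDimensional (ZMod p) A'] [FiniteDimensional (ZMod p) B]
  [FiniteDimensional (ZMod p) B'] [FiniteDimensional (ZMod p) C] [FiniteDimensional (ZMod p) C']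
  {α : Representation (ZMod p) GG A} {α' : Representation (ZMod p) GG A'}
  {β : Representation (ZMod p) GG B} {β' : Representation (ZMod p) GG B'}
  {γ : Representation (ZMod p) GG C} {γ' : Representation (ZMod p) GG C'}
  {PA : DualPair α α'} {PB : DualPair β β'} {PC : DualPair γ γ'}

section Seq

variable (s : DSeq PA PB PC) {F : SField p S} {V : Nat.Primes → VS}

/-- Classes which lift everywhere lift. -/
theorem locLift_le_map (hβ : F.Triv β) (hsha : Sha2 α S V ≤ B2S α idG S) :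
    locLift S V s.quot β γ ≤ (Z1S β idG S).map (push1 s.quot) := by
  intro c hc
  obtain ⟨hcZ, hcl⟩ := mem_locLift.1 hc
  obtain ⟨sec, hsec⟩ := s.quot.exists_rightInverse_of_surjective
    (LinearMap.range_eq_top.2 s.quot_surj)
  obtain ⟨rin, hrin⟩ := s.incl.exists_leftInverse_of_injective (LinearMap.ker_eq_bot.2 s.incl_inj)
  set u := push1 sec c with hu
  have huS : u ∈ C1S (p := p) (A := B) idG S := push1_mem_C1S sec hcZ.2
  have hqu : push1 s.quot u = c := funext fun g => LinearMap.congr_fun hsec (c g)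
  set f := push2 rin (d1 β idG u) with hf
  have hd : push2 s.incl f = d1 β idG u := by
    funext g h
    have h0 : s.quot (d1 β idG u g h) = 0 := by
      rw [← push2_apply s.quot, push2_d1 s.quot_equivar, hqu, d1_apply, MonoidHom.id_apply,
        hcZ.1.2 g h, MonoidHom.id_apply]
      abel
    obtain ⟨a, ha⟩ := s.exact _ h0
    show s.incl (rin (d1 β idG u g h)) = _
    rw [← ha, show rin (s.incl a) = a from LinearMap.congr_fun hrin a]
  have hfZ : f ∈ Z2S α idG S := by
    obtain ⟨hz, E, hE, hl⟩ := d1_mem_Z2S hβ huS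
    refine ⟨⟨⟨E, hE.1, fun g h s' t hs ht => ?_⟩, fun g h j => s.incl_inj ?_⟩,
      E, hE, fun g h s' t hs ht => ?_⟩
    · show rin _ = rin _
      rw [hl g h s' t hs ht]
    · simp only [map_add, map_sub, map_zero, s.incl_equivar _ _]
      rw [← push2_apply s.incl, ← push2_apply s.incl, ← push2_apply s.incl, ← push2_apply s.incl,
        hd]
      exact hz.2 g h j
    · show rin _ = rin _
      rw [hl g h s' t hs ht]
  have hfsha : f ∈ Sha2 α S V := (mem_sha2 V).2 ⟨hfZ, fun q hq => by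
    obtain ⟨w, hw, hwc⟩ := hcl q hq
    set d := res1 (p := p) (Dec (V q)).subtype u - w with hddef
    have hd1 : d ∈ C1 (p := p) (A := B) (Dec (V q)).subtype := by
      refine sub_mem ?_ hw.1
      obtain ⟨E, hE, hl⟩ := C1S_le_C1 S huS
      exact ⟨E, hE, fun g s' hs => hl (g : GG) s' hs⟩
    have hdq : push1 s.quot d = 0 := by
      rw [hddef, map_sub, ← res1_push1, hqu, hwc, sub_self]
    have hdin : push1 s.incl (push1 rin d) = d := by
      funext g
      obtain ⟨a, ha⟩ := s.exact (d g) (congrFun hdq g)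
      show s.incl (rin (d g)) = d g
      rw [← ha, show rin (s.incl a) = a from LinearMap.congr_fun hrin a]
    refine ⟨push1 rin d, push1_mem_C1 rin hd1, ?_⟩
    funext g h
    refine s.incl_inj ?_
    rw [← push2_apply s.incl, ← push2_apply s.incl, ← res2_push2, hd, push2_d1 s.incl_equivar,
      hdin, hddef, map_sub,
      show d1 β (Dec (V q)).subtype w = 0 from funext fun g => funext fun h => by
        rw [d1_apply, hw.2]; simp, sub_zero]
    rfl⟩
  obtain ⟨v, hv, hvf⟩ := hsha hfsha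
  refine ⟨u - push1 s.incl v, ⟨⟨sub_mem (C1S_le_C1 S huS) (push1_mem_C1 s.incl (C1S_le_C1 S hv)),
    fun g h => ?_⟩, sub_mem huS (push1_mem_C1S s.incl hv)⟩, ?_⟩
  · have h1 : d1 β idG (u - push1 s.incl v) g h = 0 := by
      rw [map_sub, ← push2_d1 s.incl_equivar, hvf, hd, sub_self]
      rfl
    rw [d1_apply, MonoidHom.id_apply, sub_add_eq_add_sub, sub_eq_zero, add_comm] at h1
    exact h1.symm
  · funext g
    rw [map_sub, hqu, Pi.sub_apply, push1_apply, push1_apply, s.quot_incl, sub_zero]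

/-- Rank and nullity for the projection of fixed vectors. -/
theorem finrank_inv_split (H : Subgroup GG) :
    Module.finrank (ZMod p) ↥(inv β' H) =
      Module.finrank (ZMod p) ↥(inv γ' H) + Module.finrank (ZMod p) ↥((inv β' H).map s.proj) := by
  have h := LinearMap.finrank_range_add_finrank_ker (s.proj ∘ₗ (inv β' H).subtype)
  rw [LinearMap.range_comp, Submodule.range_subtype] at h
  have hker : Module.finrank (ZMod p) ↥(LinearMap.ker (s.proj ∘ₗ (inv β' H).subtype)) =
      Module.finrank (ZMod p) ↥(inv γ' H) := by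
    let f : ↥(inv γ' H) →ₗ[ZMod p] ↥(LinearMap.ker (s.proj ∘ₗ (inv β' H).subtype)) :=
      { toFun := fun x => ⟨⟨s.incl' x, mem_inv.2 fun g hg => by
          rw [← s.incl'_equivar, mem_inv.1 x.2 g hg]⟩, LinearMap.mem_ker.2 (s.proj_incl' x)⟩
        map_add' := fun a b => Subtype.ext (Subtype.ext (map_add _ _ _))
        map_smul' := fun r a => Subtype.ext (Subtype.ext (map_smul _ _ _)) }
    refine (LinearEquiv.finrank_eq (LinearEquiv.ofBijective f ⟨fun a b h => ?_, fun y => ?_⟩)).symm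
    · exact Subtype.ext (s.incl'_inj (congrArg (fun z => z.1.1) h))
    · obtain ⟨x, hx⟩ := s.exact' y.1.1 (LinearMap.mem_ker.1 y.2)
      refine ⟨⟨x, mem_inv.2 fun g hg => s.incl'_inj ?_⟩, Subtype.ext (Subtype.ext hx)⟩
      rw [s.incl'_equivar, hx, mem_inv.1 y.1.2 g hg]
  omega

theorem finrank_preFix (H : Subgroup GG) :
    Module.finrank (ZMod p) ↥(preFix s H) =
      Module.finrank (ZMod p) C' + Module.finrank (ZMod p) ↥(inv α' H) := by
  have h := LinearMap.finrank_range_add_finrank_ker (s.proj ∘ₗ (preFix s H).subtype)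
  rw [LinearMap.range_comp, Submodule.range_subtype, preFix,
    Submodule.map_comap_eq_of_surjective s.proj_surj] at h
  have hker : Module.finrank (ZMod p) ↥(LinearMap.ker (s.proj ∘ₗ (preFix s H).subtype)) =
      Module.finrank (ZMod p) C' := by
    let f : C' →ₗ[ZMod p] ↥(LinearMap.ker (s.proj ∘ₗ (preFix s H).subtype)) :=
      { toFun := fun x => ⟨⟨s.incl' x, range_incl'_le s H ⟨x, rfl⟩⟩,
          LinearMap.mem_ker.2 (s.proj_incl' x)⟩
        map_add' := fun a b => Subtype.ext (Subtype.ext (map_add _ _ _))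
        map_smul' := fun r a => Subtype.ext (Subtype.ext (map_smul _ _ _)) }
    refine (LinearEquiv.finrank_eq (LinearEquiv.ofBijective f ⟨fun a b h => ?_, fun y => ?_⟩)).symm
    · exact s.incl'_inj (congrArg (fun z => z.1.1) h)
    · obtain ⟨x, hx⟩ := s.exact' y.1.1 (LinearMap.mem_ker.1 y.2)
      exact ⟨x, Subtype.ext (Subtype.ext hx)⟩
  unfold preFix at hker ⊢
  omega

theorem finrank_trueFix (H : Subgroup GG) :
    Module.finrank (ZMod p) ↥(trueFix s H) =
      Module.finrank (ZMod p) C' + Module.finrank (ZMod p) ↥((inv β' H).map s.proj) := by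
  have h := LinearMap.finrank_range_add_finrank_ker (s.proj ∘ₗ (trueFix s H).subtype)
  rw [LinearMap.range_comp, Submodule.range_subtype] at h
  have hmap : (trueFix s H).map s.proj = (inv β' H).map s.proj := by
    rw [trueFix, Submodule.map_sup, sup_eq_left]
    rintro _ ⟨_, ⟨x, rfl⟩, rfl⟩
    rw [s.proj_incl']
    exact zero_mem _
  rw [hmap] at h
  have hker : Module.finrank (ZMod p) ↥(LinearMap.ker (s.proj ∘ₗ (trueFix s H).subtype)) =
      Module.finrank (ZMod p) C' := by
    let f : C' →ₗ[ZMod p] ↥(LinearMap.ker (s.proj ∘ₗ (trueFix s H).subtype)) :=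
      { toFun := fun x => ⟨⟨s.incl' x, Submodule.mem_sup_right ⟨x, rfl⟩⟩,
          LinearMap.mem_ker.2 (s.proj_incl' x)⟩
        map_add' := fun a b => Subtype.ext (Subtype.ext (map_add _ _ _))
        map_smul' := fun r a => Subtype.ext (Subtype.ext (map_smul _ _ _)) }
    refine (LinearEquiv.finrank_eq (LinearEquiv.ofBijective f ⟨fun a b h => ?_, fun y => ?_⟩)).symm
    · exact s.incl'_inj (congrArg (fun z => z.1.1) h)
    · obtain ⟨x, hx⟩ := s.exact' y.1.1 (LinearMap.mem_ker.1 y.2)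
      exact ⟨x, Subtype.ext (Subtype.ext hx)⟩
  omega

variable (V) in
/-- The families of vectors with fixed projection at the places. -/
abbrev PreT (S : Finset Nat.Primes) : Type := (q : ↥S) → ↥(preFix s (Dec (V q)))

variable (V) in
/-- The connecting map at a place. -/
def connAt (hβ' : Smooth β') (q : ↥S) :
    ↥(preFix s (Dec (V q))) →ₗ[ZMod p] ↥(Z1 γ' (Dec (V q)).subtype) :=
  LinearMap.codRestrict _ (conn s (Dec (V q)).subtype ∘ₗ (preFix s (Dec (V q))).subtype)
    fun b => conn_mem_Z1 s _ (fun g => g.2) hβ' b.2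

variable (V) in
/-- The restriction of a global class. -/
def resAtS (q : ↥S) : ↥(Z1S γ idG S) →ₗ[ZMod p] ↥(Z1 γ (Dec (V q)).subtype) :=
  LinearMap.codRestrict _ (res1 (p := p) (Dec (V q)).subtype ∘ₗ (Z1S γ idG S).subtype)
    fun c => res1_sub_mem_Z1 (Dec (V q)) c.2.1

/-- The pairing of the global classes with the connecting classes. -/
def lamMap (hp2 : p ≠ 2) (hV : ∀ q, (V q).LiesOverPrime (q : ℕ)) (hβ' : Smooth β')
    (hγ' : Smooth γ') : ↥(Z1S γ idG S) →ₗ[ZMod p] Module.Dual (ZMod p) (PreT s V S) :=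
  ∑ q : ↥S, (locPair hp2 (q : Nat.Primes).2 (hV q) hγ' PC).compl₁₂ (resAtS V q)
    (connAt s V hβ' q ∘ₗ LinearMap.proj q)

theorem lamMap_apply (hp2 : p ≠ 2) (hV : ∀ q, (V q).LiesOverPrime (q : ℕ)) (hβ' : Smooth β')
    (hγ' : Smooth γ') (c : ↥(Z1S γ idG S)) (t : PreT s V S) :
    lamMap s hp2 hV hβ' hγ' c t = ∑ q : ↥S, invL p (V q) (Dec (V q))
      (cup (Dec (V q)).subtype PC.e γ' (res1 (p := p) (Dec (V q)).subtype c.1)
        (conn s (Dec (V q)).subtype (t q).1)) := by
  simp only [lamMap, LinearMap.sum_apply, LinearMap.compl₁₂_apply, LinearMap.comp_apply,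
    locPair_apply]
  rfl

theorem finrank_ker_lamMap (hp2 : p ≠ 2) (hpS : ExtCitation.pPrime p ∈ S)
    (hV : ∀ q, (V q).LiesOverPrime (q : ℕ)) (hβ : F.Triv β) (hβ' : F.Triv β') (hγ : F.Triv γ)
    (hγ' : F.Triv γ') [FiniteDimensional (ZMod p) ↥(Z1S γ idG S)] :
    Module.finrank (ZMod p)
        ↥(LinearMap.ker (lamMap (S := S) s hp2 hV hβ'.smooth hγ'.smooth)) ≤
      Module.finrank (ZMod p) ↥(locLift S V s.quot β γ) := by
  classical
  set Λ := lamMap (S := S) s hp2 hV hβ'.smooth hγ'.smooth with hΛ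
  haveI : FiniteDimensional (ZMod p) ↥(locLift S V s.quot β γ) := finite_of_le locLift_le
  have hmem : ∀ c : ↥(LinearMap.ker Λ), c.1.1 ∈ locLift S V s.quot β γ := fun c => by
    refine mem_locLift.2 ⟨c.1.2, fun q hq => mem_map_of_orth s hp2 hpS F hβ hβ' hγ hγ' hq (hV q)
      (res1_sub_mem_Z1 (Dec (V q)) c.1.2.1) fun b hb => ?_⟩
    have h := LinearMap.congr_fun (LinearMap.mem_ker.1 c.2)
      (Pi.single (M := fun q : ↥S => ↥(preFix s (Dec (V q)))) ⟨q, hq⟩ ⟨b, hb⟩)
    simp only [hΛ, lamMap_apply, LinearMap.zero_apply] at h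
    rw [Finset.sum_eq_single (⟨q, hq⟩ : ↥S)] at h
    · rwa [Pi.single_eq_same] at h
    · intro j _ hj
      rw [Pi.single_eq_of_ne hj, Submodule.coe_zero, map_zero]
      exact invL_B2 hp2 (j : Nat.Primes).2 (hV j) localSub_self
        (cup_mem_B2_right PC hγ'.smooth (res1_sub_mem_Z1 _ c.1.2.1) (zero_mem _))
    · exact fun h' => absurd (Finset.mem_univ _) h'
  let f : ↥(LinearMap.ker Λ) →ₗ[ZMod p] ↥(locLift S V s.quot β γ) :=
    ((Z1S γ idG S).subtype ∘ₗ (LinearMap.ker Λ).subtype).codRestrict _ hmem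
  refine LinearMap.finrank_le_finrank_of_injective (f := f) fun a b h => ?_
  exact Subtype.ext (Subtype.ext (congrArg (fun z : ↥(locLift S V s.quot β γ) => z.1) h :))

theorem preFix_le (H : Subgroup GG) : preFix s ⊤ ≤ preFix s H :=
  fun _ hb => Submodule.comap_mono (inv_antitone le_top) hb

variable (V) in
/-- The diagonal. -/
def diagT (S : Finset Nat.Primes) : ↥(preFix s ⊤) →ₗ[ZMod p] PreT s V S :=
  LinearMap.pi fun q : ↥S => Submodule.inclusion (preFix_le s (Dec (V q)))

theorem diagT_val (b : ↥(preFix s ⊤)) (q : ↥S) : ((diagT s V S b) q : B') = b := by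
  rw [diagT, LinearMap.pi_apply, Submodule.coe_inclusion]

variable (V) in
/-- The families of liftable vectors. -/
def trueT (S : Finset Nat.Primes) : Submodule (ZMod p) (PreT s V S) :=
  Submodule.pi Set.univ fun q : ↥S => (trueFix s (Dec (V q))).comap (preFix s (Dec (V q))).subtype

theorem range_lamMap (hp2 : p ≠ 2) (hpS : ExtCitation.pPrime p ∈ S)
    (hV : ∀ q, (V q).LiesOverPrime (q : ℕ)) (hβ' : F.Triv β') (hγ' : F.Triv γ') :
    LinearMap.range (lamMap (S := S) s hp2 hV hβ'.smooth hγ'.smooth) ≤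
      (trueT s V S ⊔ LinearMap.range (diagT s V S)).dualAnnihilator := by
  rintro _ ⟨c, rfl⟩
  rw [Submodule.mem_dualAnnihilator]
  intro t ht
  obtain ⟨t₀, ht₀, _, ⟨b, rfl⟩, rfl⟩ := Submodule.mem_sup.1 ht
  rw [map_add]
  have e0 : lamMap s hp2 hV hβ'.smooth hγ'.smooth c t₀ = 0 := by
    rw [lamMap_apply]
    exact Finset.sum_eq_zero fun q _ => invL_B2 hp2 (q : Nat.Primes).2 (hV q) localSub_self
      (cup_mem_B2_right PC hγ'.smooth (res1_sub_mem_Z1 _ c.2.1)
        (conn_mem_B1 s _ (fun g => g.2) (ht₀ q (Set.mem_univ q))))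
  have e1 : lamMap s hp2 hV hβ'.smooth hγ'.smooth c (diagT s V S b) = 0 := by
    rw [lamMap_apply]
    have h := invL_sum hp2 S hpS V hV
      (cup_mem_Z2S PC ⟨F.K, F.unram, hγ'⟩ c.2 (conn_mem_Z1S s hβ' b.2))
    rw [← Finset.sum_coe_sort] at h
    refine Eq.trans (Finset.sum_congr rfl fun q _ => ?_) h
    rw [diagT_val]
    rfl
  rw [e0, e1, add_zero]

theorem finrank_preT :
    Module.finrank (ZMod p) (PreT s V S) =
      ∑ q ∈ S, (Module.finrank (ZMod p) C' + Module.finrank (ZMod p) ↥(inv α' (Dec (V q)))) := by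
  rw [show Module.finrank (ZMod p) (PreT s V S) =
      ∑ q : ↥S, Module.finrank (ZMod p) ↥(preFix s (Dec (V q)))
    from Module.finrank_pi_fintype (ZMod p), Finset.sum_coe_sort S fun q =>
    Module.finrank (ZMod p) ↥(preFix s (Dec (V q)))]
  exact Finset.sum_congr rfl fun q _ => finrank_preFix s _

theorem le_finrank_trueT :
    (∑ q ∈ S, (Module.finrank (ZMod p) C' +
      Module.finrank (ZMod p) ↥((inv β' (Dec (V q))).map s.proj))) ≤
      Module.finrank (ZMod p) ↥(trueT s V S) := by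
  rw [← Finset.sum_congr rfl fun q _ => finrank_trueFix s (Dec (V q)),
    ← Finset.sum_coe_sort S fun q => Module.finrank (ZMod p) ↥(trueFix s (Dec (V q))),
    ← Module.finrank_pi_fintype (ZMod p) (M := fun q : ↥S => ↥(trueFix s (Dec (V q))))]
  let f : ((q : ↥S) → ↥(trueFix s (Dec (V q)))) →ₗ[ZMod p] ↥(trueT s V S) :=
    (LinearMap.pi fun q : ↥S =>
      Submodule.inclusion (trueFix_le s (Dec (V q))) ∘ₗ LinearMap.proj q).codRestrict (trueT s V S)
      fun t q _ => (t q).2
  refine LinearMap.finrank_le_finrank_of_injective (f := f) fun a b h => funext fun q => ?_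
  have h1 := congrArg Subtype.val (congrFun (congrArg Subtype.val h) q)
  exact Subtype.ext h1

theorem finrank_diagT (hpS : ExtCitation.pPrime p ∈ S) :
    Module.finrank (ZMod p) ↥(LinearMap.range (diagT s V S)) =
      Module.finrank (ZMod p) C' + Module.finrank (ZMod p) ↥(inv α' ⊤) := by
  have hinj : Function.Injective (diagT s V S) := fun a b h => by
    refine Subtype.ext ?_
    rw [← diagT_val s (V := V) a ⟨_, hpS⟩, h, diagT_val]
  rw [LinearMap.finrank_range_of_inj hinj, finrank_preFix]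

theorem finrank_inf_diagT
    (hglob : ∀ b ∈ preFix s ⊤, (∀ q ∈ S, b ∈ trueFix s (Dec (V q))) → b ∈ trueFix s ⊤) :
    Module.finrank (ZMod p) ↥(trueT s V S ⊓ LinearMap.range (diagT s V S)) ≤
      Module.finrank (ZMod p) C' + Module.finrank (ZMod p) ↥((inv β' ⊤).map s.proj) := by
  rw [← finrank_trueFix s ⊤]
  have hle : trueT s V S ⊓ LinearMap.range (diagT s V S) ≤
      ((trueFix s ⊤).comap (preFix s ⊤).subtype).map (diagT s V S) := by
    rintro _ ⟨ht, b, rfl⟩
    refine ⟨b, hglob b.1 b.2 fun q hq => ?_, rfl⟩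
    have h1 := ht ⟨q, hq⟩ (Set.mem_univ _)
    rwa [SetLike.mem_coe, Submodule.mem_comap, Submodule.subtype_apply, diagT_val] at h1
  refine (Submodule.finrank_mono hle).trans ((Submodule.finrank_map_le _ _).trans ?_)
  exact (Submodule.comapSubtypeEquivOfLe (trueFix_le s ⊤)).finrank_eq.le

/-- The bound for the classes which do not lift at some place. -/
theorem finrank_Z1S_le (hp2 : p ≠ 2) (hpS : ExtCitation.pPrime p ∈ S)
    (hV : ∀ q, (V q).LiesOverPrime (q : ℕ)) (hβ : F.Triv β) (hβ' : F.Triv β') (hγ : F.Triv γ)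
    (hγ' : F.Triv γ')
    (hglob : ∀ b ∈ preFix s ⊤, (∀ q ∈ S, b ∈ trueFix s (Dec (V q))) → b ∈ trueFix s ⊤)
    [FiniteDimensional (ZMod p) ↥(Z1S γ idG S)] :
    Module.finrank (ZMod p) ↥(Z1S γ idG S) + (∑ q ∈ S,
        Module.finrank (ZMod p) ↥((inv β' (Dec (V q))).map s.proj)) +
        Module.finrank (ZMod p) ↥(inv α' ⊤) ≤
      Module.finrank (ZMod p) ↥(locLift S V s.quot β γ) +
        (∑ q ∈ S, Module.finrank (ZMod p) ↥(inv α' (Dec (V q)))) +
        Module.finrank (ZMod p) ↥((inv β' ⊤).map s.proj) := by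
  have r1 := LinearMap.finrank_range_add_finrank_ker (lamMap (S := S) s hp2 hV hβ'.smooth hγ'.smooth)
  have r2 := Subspace.finrank_add_finrank_dualAnnihilator_eq
    (trueT s V S ⊔ LinearMap.range (diagT s V S))
  have r3 := Submodule.finrank_mono (range_lamMap s hp2 hpS hV hβ' hγ')
  have r4 := Submodule.finrank_sup_add_finrank_inf_eq (trueT s V S) (LinearMap.range (diagT s V S))
  have r5 := finrank_ker_lamMap s hp2 hpS hV hβ hβ' hγ hγ'
  have hT := finrank_preT s (V := V) (S := S)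
  have hT₀ := le_finrank_trueT s (V := V) (S := S)
  have hdiag := finrank_diagT s (V := V) hpS
  have hinf := finrank_inf_diagT s (V := V) (S := S) hglob
  rw [Finset.sum_add_distrib] at hT hT₀
  omega

end Seq

/-- The global lifting from the lifting at every element. -/
theorem glob_lift (s : DSeq PA PB PC) {S₁ : Finset Nat.Primes} (F : SField p S₁)
    (hβ' : F.Triv β') (hlift : CycLift β' α' s.proj) {T : Finset Nat.Primes}
    (hT : ∀ g : GG, ∃ q ∈ T, ∃ (W : VS) (τ : GG) (i : ℕ),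
      W.LiesOverPrime (q : ℕ) ∧ τ ∈ Dec W ∧ (τ ^ i)⁻¹ * g ∈ F.N)
    (hTS : T ⊆ S) {V : Nat.Primes → VS} (hV : ∀ q, (V q).LiesOverPrime (q : ℕ)) {b : B'}
    (hb : b ∈ preFix s ⊤) (hloc : ∀ q ∈ S, b ∈ trueFix s (Dec (V q))) : b ∈ trueFix s ⊤ := by
  have ha : s.proj b ∈ inv α' ⊤ := hb
  obtain ⟨b₀, hb₀, hb₀a⟩ := hlift _ ha fun g => by
    obtain ⟨q, hq, W, τ, i, hW, hτ, hg⟩ := hT g
    obtain ⟨γ₀, rfl⟩ := Places.exists_smul_eq q.2 (hV q) hW
    obtain ⟨b₁, hb₁, _, ⟨x, rfl⟩, hsum⟩ := Submodule.mem_sup.1 (hloc q (hTS hq))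
    refine ⟨β' γ₀ b₁, ?_, ?_⟩
    · have h1 : γ₀⁻¹ * τ ^ i * γ₀ ∈ Dec (V q) := by
        rw [MulAction.mem_stabilizer_iff, mul_smul, mul_smul,
          MulAction.mem_stabilizer_iff.1 (pow_mem hτ i), inv_smul_smul]
      have e : g = τ ^ i * ((τ ^ i)⁻¹ * g) := (mul_inv_cancel_left _ _).symm
      rw [e, rho_mul, hβ' _ hg, LinearMap.id_apply, ← rho_mul,
        show τ ^ i * γ₀ = γ₀ * (γ₀⁻¹ * τ ^ i * γ₀) by group, rho_mul, mem_inv.1 hb₁ _ h1]
    · rw [s.proj_equivar]
      have h2 : s.proj b₁ = s.proj b := by rw [← hsum, map_add, s.proj_incl', add_zero]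
      rw [h2, mem_inv.1 ha _ (Subgroup.mem_top _)]
  obtain ⟨x, hx⟩ := s.exact' (b - b₀) (by rw [map_sub, hb₀a, sub_self])
  exact Submodule.mem_sup.2 ⟨b₀, hb₀, _, ⟨x, rfl⟩, by rw [hx, add_sub_cancel]⟩

theorem finrank_Z1S_add (s : DSeq PA PB PC) [FiniteDimensional (ZMod p) ↥(Z1S β idG S)] :
    Module.finrank (ZMod p) ↥(Z1S α idG S) +
        Module.finrank (ZMod p) ↥((Z1S β idG S).map (push1 s.quot)) ≤
      Module.finrank (ZMod p) ↥(Z1S β idG S) := by
  have h := LinearMap.finrank_range_add_finrank_ker (push1 s.quot ∘ₗ (Z1S β idG S).subtype)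
  rw [LinearMap.range_comp, Submodule.range_subtype] at h
  have hk : Module.finrank (ZMod p) ↥(Z1S α idG S) ≤
      Module.finrank (ZMod p) ↥(LinearMap.ker (push1 s.quot ∘ₗ (Z1S β idG S).subtype)) := by
    let f : ↥(Z1S α idG S) →ₗ[ZMod p] ↥(LinearMap.ker (push1 s.quot ∘ₗ (Z1S β idG S).subtype)) :=
      ((push1 s.incl ∘ₗ (Z1S α idG S).subtype).codRestrict (Z1S β idG S)
        fun c => push1_mem_Z1S s.incl_equivar c.2).codRestrict _ fun c =>
          LinearMap.mem_ker.2 (funext fun g => s.quot_incl _)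
    refine LinearMap.finrank_le_finrank_of_injective (f := f) fun a b hab => Subtype.ext ?_
    funext g
    exact s.incl_inj (congrFun (congrArg Subtype.val (congrArg Subtype.val hab)) g)
  omega

/-- Dévissage. -/
theorem targetDev (hsha2 : TargetSha2) : TargetDev := by
  intro p _ hp2 S₁ F A A' B B' C C' _ _ _ _ _ _ _ _ _ _ _ _ _ _ _ _ _ _ α α' β β' γ γ' PA PB PC
    i π i' π' hi hπ hi' hπ' hiI hπS hex hi'I hπ'S hex' hadj hadj' hβ hβ' hcyc hlift hA hC
  classical
  let s : DSeq PA PB PC :=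
    { incl := i, quot := π, proj := π', incl' := i', incl_equivar := hi, quot_equivar := hπ
      proj_equivar := hπ', incl'_equivar := hi', incl_inj := hiI, quot_surj := hπS
      proj_surj := hπ'S, incl'_inj := hi'I
      quot_incl := fun a => LinearMap.mem_ker.1 (hex ▸ LinearMap.mem_range_self i a)
      proj_incl' := fun x => LinearMap.mem_ker.1 (hex' ▸ LinearMap.mem_range_self i' x)
      exact := fun b hb => LinearMap.mem_range.1 (hex ▸ LinearMap.mem_ker.2 hb)
      exact' := fun b hb => LinearMap.mem_range.1 (hex' ▸ LinearMap.mem_ker.2 hb)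
      adj := hadj, adj' := fun b x => (hadj' b x).symm }
  have hα : F.Triv α := fun g hg => LinearMap.ext fun a => hiI (by rw [hi, hβ g hg]; rfl)
  have hα' : F.Triv α' := fun g hg => LinearMap.ext fun a => by
    obtain ⟨b, rfl⟩ := hπ'S a
    rw [← hπ', hβ' g hg]; rfl
  have hγ : F.Triv γ := fun g hg => LinearMap.ext fun a => by
    obtain ⟨b, rfl⟩ := hπS a
    rw [← hπ, hβ g hg]; rfl
  have hγ' : F.Triv γ' := fun g hg => LinearMap.ext fun a => hi'I (by rw [hi', hβ' g hg]; rfl)
  obtain ⟨Sa, hpa, hA⟩ := hA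
  obtain ⟨Sc, hpc, hC⟩ := hC
  set S₂ : Finset Nat.Primes := insert (ExtCitation.pPrime p) S₁
  set F₂ : SField p S₂ := Field.mono F (Finset.subset_insert _ _) with hF₂
  obtain ⟨T, hT⟩ := exists_elem_primes F
  obtain ⟨Sd, hSd, hdet⟩ :=
    exists_sha1_le (ρ := α') hp2 F₂ (Finset.mem_insert_self _ _) hα' hcyc
  refine ⟨Sa ∪ Sc ∪ T ∪ Sd, by simp [hpa], fun S hS V hV c hc => ?_⟩
  simp only [Finset.union_subset_iff] at hS
  obtain ⟨⟨⟨hSa, hSc⟩, hST⟩, hSdS⟩ := hS
  have hpS : ExtCitation.pPrime p ∈ S := hSa hpa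
  set F₃ : SField p S := Field.mono F₂ (hSd.trans hSdS) with hF₃
  obtain ⟨hfA, hA⟩ := hA S hSa V hV c hc
  obtain ⟨hfC, hC⟩ := hC S hSc V hV c hc
  haveI := hfA
  haveI := hfC
  obtain ⟨R, hR, -⟩ := exists_splaces F₃ ∅ (by simp) (by simp)
  haveI := (targetField p hp2 S hpS F₃ R hR).finiteGlobal
  haveI hfB : FiniteDimensional (ZMod p) ↥(Z1S β idG S) := finite_Z1S (F := F₃) hβ
  refine ⟨hfB, ?_⟩
  have hsha : Sha2 α S V ≤ B2S α idG S :=
    hsha2 p hp2 S hpS V hV F₃ A A' α α' PA hα hα' (hdet S hSdS V hV)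
  have h1 := finrank_Z1S_le s (F := F₃) hp2 hpS hV hβ hβ' hγ hγ'
    fun b hb hloc => glob_lift s F hβ' hlift hT hST hV hb hloc
  have h2 : Module.finrank (ZMod p) ↥(locLift S V s.quot β γ) ≤
      Module.finrank (ZMod p) ↥((Z1S β idG S).map (push1 s.quot)) :=
    Submodule.finrank_mono (locLift_le_map s (F := F₃) hβ hsha)
  have h3 := finrank_Z1S_add s (S := S)
  have hinf : Module.finrank (ZMod p) ↥((inv β' (Subgroup.zpowers c)).map s.proj) ≤
      Module.finrank (ZMod p) ↥(inv α' (Subgroup.zpowers c)) := by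
    refine Submodule.finrank_mono ?_
    rintro _ ⟨b, hb, rfl⟩
    exact proj_inv s hb
  have e1 := finrank_inv_split s (Subgroup.zpowers c)
  have e2 := finrank_inv_split s (⊤ : Subgroup GG)
  have e3 : Module.finrank (ZMod p) B = Module.finrank (ZMod p) A + Module.finrank (ZMod p) C := by
    have h := LinearMap.finrank_range_add_finrank_ker π
    rw [LinearMap.range_eq_top.2 hπS, finrank_top, hex, LinearMap.finrank_range_of_inj hiI] at h
    omega
  have e4 : (∑ q ∈ S, Module.finrank (ZMod p) ↥(inv β' (Dec (V q)))) =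
      (∑ q ∈ S, Module.finrank (ZMod p) ↥(inv γ' (Dec (V q)))) +
        ∑ q ∈ S, Module.finrank (ZMod p) ↥((inv β' (Dec (V q))).map s.proj) := by
    rw [← Finset.sum_add_distrib]
    exact Finset.sum_congr rfl fun q _ => finrank_inv_split s _
  simp only [locTerm] at hA hC ⊢
  omega

end FLTAgent.TWPrimes
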