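import Fermat.Agent.TWPrimes.Dev.Local
import Fermat.Agent.TWPrimes.Count.Pair

/-!
# The connecting map of an extension and the classes which lift at one place
-/

set_option autoImplicit false
set_option linter.unusedSectionVars false
set_option linter.style.haveILetI false

noncomputable section

open scoped Pointwise

namespace FLTAgent.TWPrimes

open FLTAgent.PoitouTate FLTAgent.Lowering.P1 FLTAgent.Lowering.P1.Brauer

local notation "LL" => AlgebraicClosure ℚ
local notation "GG" => (AlgebraicClosure ℚ ≃ₐ[ℚ] AlgebraicClosure ℚ)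
local notation "VS" => ValuationSubring (AlgebraicClosure ℚ)
local notation "Dec" => ValuationSubring.decompositionSubgroup ℚ

variable {p : ℕ} [Fact p.Prime] {S : Finset Nat.Primes}
  {A A' B B' C C' : Type} [AddCommGroup A] [Module (ZMod p) A] [AddCommGroup A']
  [Module (ZMod p) A'] [AddCommGroup B] [Module (ZMod p) B] [AddCommGroup B']
  [Module (ZMod p) B'] [AddCommGroup C] [Module (ZMod p) C] [AddCommGroup C']
  [Module (ZMod p) C']
  {α : Representation (ZMod p) GG A} {α' : Representation (ZMod p) GG A'}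
  {β : Representation (ZMod p) GG B} {β' : Representation (ZMod p) GG B'}
  {γ : Representation (ZMod p) GG C} {γ' : Representation (ZMod p) GG C'}
  {PA : DualPair α α'} {PB : DualPair β β'} {PC : DualPair γ γ'}

theorem inv_antitone {ρ : Representation (ZMod p) GG A} {H K : Subgroup GG} (h : H ≤ K) :
    inv ρ K ≤ inv ρ H := fun _ ha => mem_inv.2 fun g hg => mem_inv.1 ha g (h hg)

section Maps

variable (s : DSeq PA PB PC)

/-- A retraction of the dual inclusion. -/
def retr : B' →ₗ[ZMod p] C' :=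
  (s.incl'.exists_leftInverse_of_injective (LinearMap.ker_eq_bot.2 s.incl'_inj)).choose

theorem retr_incl' (x : C') : retr s (s.incl' x) = x :=
  LinearMap.congr_fun
    (s.incl'.exists_leftInverse_of_injective (LinearMap.ker_eq_bot.2 s.incl'_inj)).choose_spec x

/-- The vectors with fixed projection. -/
def preFix (H : Subgroup GG) : Submodule (ZMod p) B' := (inv α' H).comap s.proj

/-- Those which differ from fixed ones by the kernel. -/
def trueFix (H : Subgroup GG) : Submodule (ZMod p) B' := inv β' H ⊔ LinearMap.range s.incl'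

/-- The connecting map. -/
def conn {G : Type} [Group G] (ι : G →* GG) : B' →ₗ[ZMod p] G → C' :=
  push1 (retr s) ∘ₗ d0 β' ι

theorem range_incl'_le (H : Subgroup GG) : LinearMap.range s.incl' ≤ preFix s H := by
  rintro _ ⟨x, rfl⟩
  show s.proj (s.incl' x) ∈ inv α' H
  rw [s.proj_incl']
  exact zero_mem _

theorem proj_inv {H : Subgroup GG} {b : B'} (hb : b ∈ inv β' H) : s.proj b ∈ inv α' H :=
  mem_inv.2 fun g hg => by rw [← s.proj_equivar, mem_inv.1 hb g hg]

theorem trueFix_le (H : Subgroup GG) : trueFix s H ≤ preFix s H :=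
  sup_le (fun _ hb => proj_inv s hb) (range_incl'_le s H)

theorem incl'_conn {G : Type} [Group G] (ι : G →* GG) {H : Subgroup GG} (hι : ∀ g, ι g ∈ H)
    {b : B'} (hb : b ∈ preFix s H) : push1 s.incl' (conn s ι b) = d0 β' ι b := by
  funext g
  obtain ⟨x, hx⟩ := s.exact' (d0 β' ι b g) (by
    rw [d0_apply, map_sub, s.proj_equivar, mem_inv.1 hb _ (hι g), sub_self])
  show s.incl' (retr s (d0 β' ι b g)) = _
  rw [← hx, retr_incl']

theorem conn_mem_Z1 {G : Type} [Group G] (ι : G →* GG) {H : Subgroup GG} (hι : ∀ g, ι g ∈ H)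
    (hβ' : Smooth β') {b : B'} (hb : b ∈ preFix s H) : conn s ι b ∈ Z1 γ' ι := by
  have h := d0_mem_Z1 (ρ := β') (ι := ι) hβ' b
  refine ⟨push1_mem_C1 (retr s) h.1, fun g g' => s.incl'_inj ?_⟩
  rw [map_add, s.incl'_equivar, ← push1_apply s.incl', ← push1_apply s.incl',
    ← push1_apply s.incl', incl'_conn s ι hι hb]
  exact h.2 g g'

theorem conn_mem_Z1S {F : SField p S} (hβ' : F.Triv β') {b : B'} (hb : b ∈ preFix s ⊤) :
    conn s (MonoidHom.id GG) b ∈ Z1S γ' (MonoidHom.id GG) S :=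
  ⟨conn_mem_Z1 s _ (fun _ => Subgroup.mem_top _) hβ'.smooth hb,
    push1_mem_C1S (retr s) (d0_mem_Z1S hβ' b).2⟩

theorem conn_incl' {G : Type} [Group G] (ι : G →* GG) (x : C') :
    conn s ι (s.incl' x) = d0 γ' ι x := by
  funext g
  show retr s (β' (ι g) (s.incl' x) - s.incl' x) = _
  rw [← s.incl'_equivar, ← map_sub, retr_incl']
  rfl

theorem conn_inv {G : Type} [Group G] (ι : G →* GG) {H : Subgroup GG} (hι : ∀ g, ι g ∈ H)
    {b : B'} (hb : b ∈ inv β' H) : conn s ι b = 0 := by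
  funext g
  show retr s (β' (ι g) b - b) = 0
  rw [mem_inv.1 hb _ (hι g), sub_self, map_zero]

theorem conn_mem_B1 {G : Type} [Group G] (ι : G →* GG) {H : Subgroup GG} (hι : ∀ g, ι g ∈ H)
    {b : B'} (hb : b ∈ trueFix s H) : conn s ι b ∈ B1 γ' ι := by
  obtain ⟨b₀, hb₀, _, ⟨x, rfl⟩, rfl⟩ := Submodule.mem_sup.1 hb
  rw [map_add, conn_inv s ι hι hb₀, conn_incl', zero_add]
  exact ⟨x, rfl⟩

variable [FiniteDimensional (ZMod p) A] [FiniteDimensional (ZMod p) A'] [FiniteDimensional (ZMod p) B]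
  [FiniteDimensional (ZMod p) B'] [FiniteDimensional (ZMod p) C] [FiniteDimensional (ZMod p) C']

/-- A local class orthogonal to the connecting classes lifts. -/
theorem mem_map_of_orth (hp2 : p ≠ 2) (hpS : ExtCitation.pPrime p ∈ S) (F : SField p S)
    (hβ : F.Triv β) (hβ' : F.Triv β') (hγ : F.Triv γ) (hγ' : F.Triv γ') {q : Nat.Primes}
    (hq : q ∈ S) {W : VS} (hW : W.LiesOverPrime (q : ℕ)) {x : ↥(Dec W) → C}
    (hx : x ∈ Z1 γ (Dec W).subtype)
    (h : ∀ b ∈ preFix s (Dec W), invL p W (Dec W)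
      (cup (Dec W).subtype PC.e γ' x (conn s (Dec W).subtype b)) = 0) :
    x ∈ (Z1 β (Dec W).subtype).map (push1 s.quot) := by
  classical
  haveI := finite_Z1_dec hp2 hpS F hγ hq hW
  haveI := finite_Z1_dec hp2 hpS F hγ' hq hW
  set Zc := Z1 γ (Dec W).subtype
  set M := (Z1 β (Dec W).subtype).map (push1 s.quot) with hM
  by_contra hxM
  obtain ⟨φ, hφx, hφM⟩ := Submodule.exists_dual_map_eq_bot_of_notMem
    (p := M.comap Zc.subtype) (x := ⟨x, hx⟩) hxM inferInstance
  set Φ := locPair hp2 q.2 hW hγ'.smooth PC with hΦ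
  have hφ0 : ∀ v, v ∈ M.comap Zc.subtype → φ v = 0 := fun v hv =>
    (Submodule.eq_bot_iff _).1 hφM _ (Submodule.mem_map_of_mem hv)
  have hker : LinearMap.ker Φ ≤ M.comap Zc.subtype := fun v hv => by
    have h1 : (v : ↥(Dec W) → C) ∈ B1 γ (Dec W).subtype :=
      mem_B1_of_orth_left hp2 hpS F PC hγ hγ' hq hW v.2 fun b hb => by
        rw [← locPair_apply hp2 q.2 hW hγ'.smooth PC v ⟨b, hb⟩]
        exact LinearMap.congr_fun (LinearMap.mem_ker.1 hv) ⟨b, hb⟩
    obtain ⟨c₀, hc₀⟩ := h1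
    obtain ⟨b₀, rfl⟩ := s.quot_surj c₀
    exact ⟨d0 β (Dec W).subtype b₀, d0_mem_Z1 hβ.smooth b₀,
      (push1_d0 s.quot_equivar b₀).trans hc₀⟩
  have hmem : φ ∈ LinearMap.range Φ.dualMap := by
    rw [LinearMap.range_dualMap_eq_dualAnnihilator_ker, Submodule.mem_dualAnnihilator]
    exact fun v hv => hφ0 v (hker hv)
  obtain ⟨ξ, rfl⟩ := hmem
  obtain ⟨y, rfl⟩ := (Module.evalEquiv (ZMod p) ↥(Z1 γ' (Dec W).subtype)).surjective ξ
  have hval : ∀ v, (Φ.dualMap ((Module.evalEquiv (ZMod p) ↥(Z1 γ' (Dec W).subtype)) y)) v =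
      invL p W (Dec W) (cup (Dec W).subtype PC.e γ' (v : ↥(Dec W) → C) y.1) := fun v =>
    locPair_apply hp2 q.2 hW hγ'.smooth PC v y
  have hy : push1 s.incl' y.1 ∈ B1 β' (Dec W).subtype := by
    refine targetLocalDual targetField p hp2 S hpS F B B' β β' PB hβ hβ' q hq W hW _
      (push1_mem_Z1 s.incl'_equivar y.2) fun a ha => ?_
    have h1 := hφ0 ⟨push1 s.quot a, push1_mem_Z1 s.quot_equivar ha⟩ ⟨a, ha, rfl⟩
    rw [hval] at h1
    rw [← h1]
    congr 1
    funext g g'
    simp only [cup, push1_apply, ← s.incl'_equivar _ _, s.adj']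
  obtain ⟨b, hb⟩ := hy
  have hbpre : b ∈ preFix s (Dec W) := mem_inv.2 fun g hg => by
    have h1 := congrArg s.proj (congrFun hb ⟨g, hg⟩)
    rw [d0_apply, push1_apply, s.proj_incl', map_sub, sub_eq_zero, s.proj_equivar] at h1
    exact h1
  have hyb : y.1 = conn s (Dec W).subtype b := by
    funext g
    show _ = retr s (d0 β' (Dec W).subtype b g)
    rw [hb, push1_apply, retr_incl']
  refine hφx ?_
  rw [hval, hyb]
  exact h b hbpre

end Maps

end FLTAgent.TWPrimes
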