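import Fermat.Agent.TWPrimes.Dev.Detect
import Fermat.Agent.PoitouTate.Sha.Seq
import Fermat.Agent.PoitouTate.LocalDual.Target

/-!
# Local classes: finiteness and the two annihilators of an extension
-/

set_option autoImplicit false
set_option linter.unusedSectionVars false
set_option linter.style.haveILetI false

noncomputable section

open scoped Pointwise

namespace FLTAgent.TWPrimes

open FLTAgent.PoitouTate FLTAgent.Lowering.P1 FLTAgent.Lowering.P1.Brauer

local notation "LL" => AlgebraicClosure ℚ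
local notation "GG" => (AlgebraicClosure ℚ ≃ₐ[ℚ] AlgebraicClosure ℚ)
local notation "VS" => ValuationSubring (AlgebraicClosure ℚ)
local notation "Dec" => ValuationSubring.decompositionSubgroup ℚ

variable {p : ℕ} [Fact p.Prime] {S : Finset Nat.Primes}
  {A : Type} [AddCommGroup A] [Module (ZMod p) A] {ρ : Representation (ZMod p) GG A}

/-- Local cocycles form a finite space. -/
theorem finite_Z1_dec (hp2 : p ≠ 2) (hpS : ExtCitation.pPrime p ∈ S) (F : SField p S)
    [FiniteDimensional (ZMod p) A] (hρ : F.Triv ρ) {q : Nat.Primes} (hq : q ∈ S) {W : VS}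
    (hW : W.LiesOverPrime (q : ℕ)) :
    FiniteDimensional (ZMod p) ↥(Z1 ρ (Dec W).subtype) := by
  classical
  haveI := F.fd
  haveI := F.normal
  obtain ⟨R, hR, hWR⟩ := exists_splaces F {W} (fun w hw => ⟨q, hq, by
    rwa [Finset.mem_singleton.1 hw]⟩) fun v hv w hw _ => by
      rw [Finset.mem_singleton.1 hv, Finset.mem_singleton.1 hw]
  haveI := (targetField p hp2 S hpS F R hR).finiteLocal W (hWR (Finset.mem_singleton_self W))
  let b := Module.finBasis (ZMod p) A
  let pick : F.Γ → ↥(Dec W) := fun x =>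
    if h : ∃ d : ↥(Dec W), ((d : GG) : F.Γ) = x then h.choose else 1
  have hpick : ∀ d : ↥(Dec W), ((pick ((d : GG) : F.Γ) : GG) : F.Γ) = ((d : GG) : F.Γ) := fun d => by
    have h : ∃ e : ↥(Dec W), ((e : GG) : F.Γ) = ((d : GG) : F.Γ) := ⟨d, rfl⟩
    simp only [pick, dif_pos h]
    exact h.choose_spec
  let j : ↥(F.Hw W) →* ↥(Dec W) := Subgroup.inclusion inf_le_right
  have hco : ∀ c ∈ Z1 ρ (Dec W).subtype, ∀ i,
      (fun x : ↥(F.Hw W) => b.coord i (c (j x))) ∈ Z1 (omRep p) (F.Hw W).subtype := by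
    intro c hc i
    obtain ⟨⟨E, hE, hl⟩, hcoc⟩ := hc
    refine ⟨⟨E, hE, fun g s hs => ?_⟩, fun g h => ?_⟩
    · show b.coord i (c (j (g * s))) = _
      rw [map_mul, hl (j g) (j s) hs]
    · show b.coord i (c (j (g * h))) = _
      rw [map_mul, hcoc,
        show ρ ((Dec W).subtype (j g)) = LinearMap.id from hρ _ (Subgroup.mem_inf.1 g.2).1,
        LinearMap.id_apply, map_add, omRep_apply,
        show om p ((F.Hw W).subtype g) = 1 from F.zeta _ (Subgroup.mem_inf.1 g.2).1, one_mul]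
  let T : ↥(Z1 ρ (Dec W).subtype) →ₗ[ZMod p]
      (Fin (Module.finrank (ZMod p) A) → ↥(Z1 (omRep p) (F.Hw W).subtype)) × (F.Γ → A) :=
    LinearMap.prod
      (LinearMap.pi fun i => LinearMap.codRestrict _
        ((b.coord i).compLeft ↥(F.Hw W) ∘ₗ
          res1 (p := p) j ∘ₗ (Z1 ρ (Dec W).subtype).subtype)
        fun c => hco c c.2 i)
      ((LinearMap.funLeft (ZMod p) A pick) ∘ₗ (Z1 ρ (Dec W).subtype).subtype)
  have hT : Function.Injective T := by
    rw [injective_iff_map_eq_zero]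
    intro c hc
    refine Subtype.ext (funext fun d => ?_)
    set e := pick ((d : GG) : F.Γ)
    have h2 : c.1 e = 0 := congrFun (congrArg Prod.snd hc) _
    have hN : (e : GG)⁻¹ * d ∈ F.N := QuotientGroup.eq.1 (hpick d)
    have hD : (e : GG)⁻¹ * d ∈ Dec W := mul_mem (inv_mem e.2) d.2
    have h1 : c.1 ⟨(e : GG)⁻¹ * d, hD⟩ = 0 := b.ext_elem fun i => by
      rw [map_zero]
      exact congrFun (Subtype.ext_iff.1 (congrFun (congrArg Prod.fst hc) i))
        ⟨(e : GG)⁻¹ * d, Subgroup.mem_inf.2 ⟨hN, hD⟩⟩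
    have h3 := c.2.2 e ⟨(e : GG)⁻¹ * d, hD⟩
    rw [show e * ⟨(e : GG)⁻¹ * d, hD⟩ = d from Subtype.ext (mul_inv_cancel_left _ _), h2, h1,
      map_zero, add_zero] at h3
    exact h3
  exact Module.Finite.of_injective T hT

variable {A' : Type} [AddCommGroup A'] [Module (ZMod p) A'] {ρ' : Representation (ZMod p) GG A'}

/-- Local duality, on the other side. -/
theorem mem_B1_of_orth_left (hp2 : p ≠ 2) (hpS : ExtCitation.pPrime p ∈ S) (F : SField p S)
    [FiniteDimensional (ZMod p) A] [FiniteDimensional (ZMod p) A'] (P : DualPair ρ ρ')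
    (hρ : F.Triv ρ) (hρ' : F.Triv ρ') {q : Nat.Primes} (hq : q ∈ S) {W : VS}
    (hW : W.LiesOverPrime (q : ℕ)) {a : ↥(Dec W) → A} (ha : a ∈ Z1 ρ (Dec W).subtype)
    (h : ∀ b ∈ Z1 ρ' (Dec W).subtype,
      invL p W (Dec W) (cup (Dec W).subtype P.e ρ' a b) = 0) :
    a ∈ B1 ρ (Dec W).subtype := by
  refine targetLocalDual targetField p hp2 S hpS F A' A ρ' ρ P.swap hρ' hρ q hq W hW a ha
    fun b hb => ?_
  rw [invL_swap P hp2 q.2 hW localSub_self hρ.smooth hρ'.smooth ha hb, h b hb, neg_zero]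

end FLTAgent.TWPrimes
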